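import Mathlib
import Fermat.Prelude.Def_ExtCitation_AdmissibleExtension_v2

/-!
# S14, Galois reduction: the mod `p` cyclotomic character of `Gal(ℚ̄/ℚ)` with values in `ZMod p`
-/

set_option autoImplicit false
set_option linter.style.haveILetI false

namespace Fermat.Agent.S14.Reduction

open ExtCitation

section cyclo

variable (p : ℕ) [Fact p.Prime]

/-- The mod `p` cyclotomic character, with values in `ZMod p`. -/
noncomputable def chi (σ : AlgebraicClosure ℚ ≃ₐ[ℚ] AlgebraicClosure ℚ) : ZMod p :=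
  (cycloExp p σ : ZMod p)

lemma chi_eq_coe (σ : AlgebraicClosure ℚ ≃ₐ[ℚ] AlgebraicClosure ℚ) :
    haveI : NeZero p := ⟨(Fact.out : p.Prime).ne_zero⟩
    chi p σ = ((modularCyclotomicCharacter (AlgebraicClosure ℚ) (card_rootsOfUnity_eq_self p)
      (σ : AlgebraicClosure ℚ ≃+* AlgebraicClosure ℚ) : (ZMod p)ˣ) : ZMod p) := by
  haveI : NeZero p := ⟨(Fact.out : p.Prime).ne_zero⟩
  unfold chi cycloExp
  exact ZMod.natCast_zmod_val _

lemma chi_one : chi p 1 = 1 := by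
  haveI : NeZero p := ⟨(Fact.out : p.Prime).ne_zero⟩
  rw [chi_eq_coe]
  have : ((1 : AlgebraicClosure ℚ ≃ₐ[ℚ] AlgebraicClosure ℚ) :
      AlgebraicClosure ℚ ≃+* AlgebraicClosure ℚ) = 1 := rfl
  rw [this, map_one, Units.val_one]

lemma chi_mul (σ τ : AlgebraicClosure ℚ ≃ₐ[ℚ] AlgebraicClosure ℚ) :
    chi p (σ * τ) = chi p σ * chi p τ := by
  haveI : NeZero p := ⟨(Fact.out : p.Prime).ne_zero⟩
  rw [chi_eq_coe, chi_eq_coe, chi_eq_coe]
  have : ((σ * τ : AlgebraicClosure ℚ ≃ₐ[ℚ] AlgebraicClosure ℚ) :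
      AlgebraicClosure ℚ ≃+* AlgebraicClosure ℚ) =
      (σ : AlgebraicClosure ℚ ≃+* AlgebraicClosure ℚ) * (τ : AlgebraicClosure ℚ ≃+* AlgebraicClosure ℚ) := rfl
  rw [this, map_mul, Units.val_mul]

lemma chi_isUnit (σ : AlgebraicClosure ℚ ≃ₐ[ℚ] AlgebraicClosure ℚ) : IsUnit (chi p σ) := by
  haveI : NeZero p := ⟨(Fact.out : p.Prime).ne_zero⟩
  rw [chi_eq_coe]
  exact Units.isUnit _

lemma chi_ne_zero (σ : AlgebraicClosure ℚ ≃ₐ[ℚ] AlgebraicClosure ℚ) : chi p σ ≠ 0 :=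
  (chi_isUnit p σ).ne_zero

lemma chi_inv (σ : AlgebraicClosure ℚ ≃ₐ[ℚ] AlgebraicClosure ℚ) :
    chi p σ⁻¹ = (chi p σ)⁻¹ := by
  have h : chi p σ⁻¹ * chi p σ = 1 := by rw [← chi_mul, inv_mul_cancel, chi_one]
  exact eq_inv_of_mul_eq_one_left h

/-- The defining property of the cyclotomic character. -/
lemma apply_of_pow_eq_one (σ : AlgebraicClosure ℚ ≃ₐ[ℚ] AlgebraicClosure ℚ)
    {ζ : AlgebraicClosure ℚ} (hζ : ζ ^ p = 1) : σ ζ = ζ ^ cycloExp p σ := by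
  haveI : NeZero p := ⟨(Fact.out : p.Prime).ne_zero⟩
  have hu : IsUnit ζ := IsUnit.of_pow_eq_one hζ (NeZero.ne p)
  obtain ⟨u, rfl⟩ := hu
  have hmem : u ∈ rootsOfUnity p (AlgebraicClosure ℚ) := by
    rw [mem_rootsOfUnity]
    exact Units.ext (by simpa using hζ)
  exact modularCyclotomicCharacter.spec (AlgebraicClosure ℚ) (card_rootsOfUnity_eq_self p)
    (σ : AlgebraicClosure ℚ ≃+* AlgebraicClosure ℚ) hmem

lemma chi_eq_one_iff (σ : AlgebraicClosure ℚ ≃ₐ[ℚ] AlgebraicClosure ℚ)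
    {ζ : AlgebraicClosure ℚ} (hζ : IsPrimitiveRoot ζ p) : chi p σ = 1 ↔ σ ζ = ζ := by
  haveI : NeZero p := ⟨(Fact.out : p.Prime).ne_zero⟩
  rw [apply_of_pow_eq_one p σ hζ.pow_eq_one]
  have hp1 : 1 < p := (Fact.out : p.Prime).one_lt
  haveI : Fact (1 < p) := ⟨hp1⟩
  have hlt : cycloExp p σ < p := ZMod.val_lt _
  constructor
  · intro h
    have h1 : cycloExp p σ = 1 := by
      have : ((cycloExp p σ : ℕ) : ZMod p) = ((1 : ℕ) : ZMod p) := by simpa [chi] using h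
      rw [ZMod.natCast_eq_natCast_iff'] at this
      rwa [Nat.mod_eq_of_lt hlt, Nat.mod_eq_of_lt hp1] at this
    rw [h1, pow_one]
  · intro h
    have h1 : cycloExp p σ = 1 := by
      have := hζ.pow_inj hlt hp1 (by rw [h, pow_one])
      exact this
    simp [chi, h1]

end cyclo

end Fermat.Agent.S14.Reduction
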