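import Mathlib
import Fermat.Prelude.Def_ExtCitation_AdmissibleExtension_v2
import Fermat.Agent.S14.Reduction.Cyclo

/-!
# S14, Galois reduction: linear algebra of an admissible extension

`V` is a two-dimensional `𝔽_p`-representation of `Γ = Gal(ℚ̄/ℚ)`, `C` a line fixed pointwise, with
`Γ` acting on `V/C` by the cyclotomic character `χ`.  For `τ` with `χ τ = 1` the map
`x ↦ τ • x - x` takes values in `C` and kills `C`; this gives all the group theory we need.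
-/

set_option autoImplicit false
set_option linter.style.haveILetI false
set_option linter.unusedSectionVars false

namespace Fermat.Agent.S14.Reduction

open ExtCitation

section module

variable {p : ℕ} [Fact p.Prime] {V : Type} [AddCommGroup V] [Module (ZMod p) V]
  [DistribMulAction (AlgebraicClosure ℚ ≃ₐ[ℚ] AlgebraicClosure ℚ) V]
  [SMulCommClass (AlgebraicClosure ℚ ≃ₐ[ℚ] AlgebraicClosure ℚ) (ZMod p) V]

variable (V) in
/-- The kernel of the action on `V`. -/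
def kerAction : Subgroup (AlgebraicClosure ℚ ≃ₐ[ℚ] AlgebraicClosure ℚ) where
  carrier := {σ | ∀ v : V, σ • v = v}
  one_mem' := fun v => one_smul _ v
  mul_mem' := fun {σ τ} hσ hτ v => by rw [mul_smul, hτ v, hσ v]
  inv_mem' := fun {σ} hσ v => by
    have := hσ v
    rw [← this, inv_smul_smul, this]

lemma mem_kerAction {σ : AlgebraicClosure ℚ ≃ₐ[ℚ] AlgebraicClosure ℚ} :
    σ ∈ kerAction V ↔ ∀ v : V, σ • v = v := Iff.rfl

instance kerAction_normal : (kerAction V).Normal where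
  conj_mem := fun n hn g v => by
    rw [mul_smul, mul_smul, hn (g⁻¹ • v), smul_inv_smul]

variable (p) in
/-- The kernel of the mod `p` cyclotomic character. -/
def chiKer : Subgroup (AlgebraicClosure ℚ ≃ₐ[ℚ] AlgebraicClosure ℚ) where
  carrier := {σ | chi p σ = 1}
  one_mem' := chi_one p
  mul_mem' := fun {σ τ} hσ hτ => by
    show chi p (σ * τ) = 1
    rw [chi_mul, hσ, hτ, one_mul]
  inv_mem' := fun {σ} hσ => by
    show chi p σ⁻¹ = 1
    rw [chi_inv, hσ, inv_one]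

lemma mem_chiKer {σ : AlgebraicClosure ℚ ≃ₐ[ℚ] AlgebraicClosure ℚ} :
    σ ∈ chiKer p ↔ chi p σ = 1 := Iff.rfl

instance chiKer_normal : (chiKer p).Normal where
  conj_mem := fun n hn g => by
    show chi p (g * n * g⁻¹) = 1
    rw [chi_mul, chi_mul, chi_inv, hn, mul_one, mul_inv_cancel₀ (chi_ne_zero p g)]

variable {C : Submodule (ZMod p) V} (h : IsAdmissibleExtension p V C)

include h

lemma smul_sub_chi_smul_mem (σ : AlgebraicClosure ℚ ≃ₐ[ℚ] AlgebraicClosure ℚ) (x : V) :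
    σ • x - chi p σ • x ∈ C := h.cyclo_quot σ x

lemma exists_not_mem : ∃ v : V, v ∉ C := by
  by_contra hcon
  push Not at hcon
  have htop : C = ⊤ := eq_top_iff.mpr fun x _ => hcon x
  have h1 : Nat.card C = Nat.card V := by
    rw [htop]
    exact Nat.card_congr (Submodule.topEquiv (R := ZMod p) (M := V)).toEquiv
  rw [h.card_sub, h.card_total] at h1
  have hp : 1 < p := (Fact.out : p.Prime).one_lt
  nlinarith

lemma exists_ne_zero_mem : ∃ c ∈ C, c ≠ (0 : V) := by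
  by_contra hcon
  push Not at hcon
  have hbot : C = ⊥ := eq_bot_iff.mpr fun x hx => (Submodule.mem_bot _).mpr (hcon x hx)
  have h1 : Nat.card C = 1 := by
    rw [hbot]
    exact Nat.card_unique
  rw [h.card_sub] at h1
  exact (Fact.out : p.Prime).one_lt.ne' h1

lemma chi_eq_one_of_mem_kerAction {σ : AlgebraicClosure ℚ ≃ₐ[ℚ] AlgebraicClosure ℚ}
    (hσ : σ ∈ kerAction V) : chi p σ = 1 := by
  obtain ⟨v, hv⟩ := exists_not_mem h
  have h1 := smul_sub_chi_smul_mem h σ v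
  rw [hσ v] at h1
  by_contra hne
  have h2 : (1 - chi p σ) • v ∈ C := by rwa [sub_smul, one_smul]
  have h3 : (1 - chi p σ) ≠ 0 := sub_ne_zero.mpr (Ne.symm hne)
  have h4 : v ∈ C := by
    have := C.smul_mem (1 - chi p σ)⁻¹ h2
    rwa [smul_smul, inv_mul_cancel₀ h3, one_smul] at this
  exact hv h4

lemma kerAction_le_chiKer : kerAction V ≤ chiKer p :=
  fun _ hσ => chi_eq_one_of_mem_kerAction h hσ

/-- For `τ` in the kernel of the cyclotomic character, `τ • x - x ∈ C`. -/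
lemma smul_sub_mem {τ : AlgebraicClosure ℚ ≃ₐ[ℚ] AlgebraicClosure ℚ} (hτ : τ ∈ chiKer p)
    (x : V) : τ • x - x ∈ C := by
  have := smul_sub_chi_smul_mem h τ x
  rwa [mem_chiKer.mp hτ, one_smul] at this

lemma smul_eq_of_mem (σ : AlgebraicClosure ℚ ≃ₐ[ℚ] AlgebraicClosure ℚ) {x : V} (hx : x ∈ C) :
    σ • x = x := h.fixed_sub σ x hx

/-- The conjugation formula: `(σ τ σ⁻¹) y - y = χ(σ)⁻¹ (τ y - y)` for `τ ∈ ker χ`. -/
lemma conj_smul_sub {τ : AlgebraicClosure ℚ ≃ₐ[ℚ] AlgebraicClosure ℚ} (hτ : τ ∈ chiKer p)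
    (σ : AlgebraicClosure ℚ ≃ₐ[ℚ] AlgebraicClosure ℚ) (y : V) :
    (σ * τ * σ⁻¹) • y - y = (chi p σ)⁻¹ • (τ • y - y) := by
  -- `σ⁻¹ y = χ(σ)⁻¹ y + c'`
  set c' := σ⁻¹ • y - chi p σ⁻¹ • y with hc'
  have hc'C : c' ∈ C := smul_sub_chi_smul_mem h σ⁻¹ y
  have hy : σ⁻¹ • y = chi p σ⁻¹ • y + c' := by rw [hc']; abel
  have h1 : τ • (σ⁻¹ • y) - σ⁻¹ • y = (chi p σ)⁻¹ • (τ • y - y) := by
    rw [hy, smul_add, smul_eq_of_mem h τ hc'C, smul_comm τ (chi p σ⁻¹) y, chi_inv, smul_sub]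
    abel
  have h2 : τ • (σ⁻¹ • y) - σ⁻¹ • y ∈ C := smul_sub_mem h hτ _
  have h3 : σ • (τ • (σ⁻¹ • y) - σ⁻¹ • y) = τ • (σ⁻¹ • y) - σ⁻¹ • y := smul_eq_of_mem h σ h2
  rw [← h1, ← h3, smul_sub, smul_inv_smul, mul_smul, mul_smul]

lemma mul_smul_sub {τ₁ τ₂ : AlgebraicClosure ℚ ≃ₐ[ℚ] AlgebraicClosure ℚ}
    (hτ₂ : τ₂ ∈ chiKer p) (x : V) :
    (τ₁ * τ₂) • x - x = (τ₁ • x - x) + (τ₂ • x - x) := by
  have h2 : τ₂ • x - x ∈ C := smul_sub_mem h hτ₂ x
  have h3 : τ₁ • (τ₂ • x - x) = τ₂ • x - x := smul_eq_of_mem h τ₁ h2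
  rw [smul_sub] at h3
  rw [mul_smul]
  have : τ₁ • τ₂ • x = τ₂ • x - x + τ₁ • x := by rw [← h3]; abel
  rw [this]
  abel

lemma pow_smul_sub {τ : AlgebraicClosure ℚ ≃ₐ[ℚ] AlgebraicClosure ℚ} (hτ : τ ∈ chiKer p)
    (a : ℕ) (x : V) : (τ ^ a) • x - x = (a : ZMod p) • (τ • x - x) := by
  induction a with
  | zero => simp
  | succ a ih =>
    rw [pow_succ, mul_smul_sub h hτ, ih, Nat.cast_succ, add_smul, one_smul]

lemma inv_smul_sub {τ : AlgebraicClosure ℚ ≃ₐ[ℚ] AlgebraicClosure ℚ} (hτ : τ ∈ chiKer p)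
    (x : V) : τ⁻¹ • x - x = -(τ • x - x) := by
  have h1 := mul_smul_sub h (τ₁ := τ) ((chiKer p).inv_mem hτ) x
  rw [mul_inv_cancel, one_smul, sub_self] at h1
  have : τ⁻¹ • x - x = -(τ • x - x) := by
    rw [eq_neg_iff_add_eq_zero, add_comm]
    exact h1.symm
  exact this

/-- The group-theoretic form of "`Δ` acts on `Gal(K/F)` through `ω⁻¹`":
`σ τ^a σ⁻¹ τ⁻¹` acts trivially on `V` for `τ ∈ ker χ` and `a ≡ χ(σ)`. -/
theorem conj_pow_mul_inv_mem_kerAction' {τ : AlgebraicClosure ℚ ≃ₐ[ℚ] AlgebraicClosure ℚ}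
    (hτ : τ ∈ chiKer p) (σ : AlgebraicClosure ℚ ≃ₐ[ℚ] AlgebraicClosure ℚ) {a : ℕ}
    (ha : (a : ZMod p) = chi p σ) :
    σ * τ ^ a * σ⁻¹ * τ⁻¹ ∈ kerAction V := by
  intro y
  have hτa : τ ^ a ∈ chiKer p := (chiKer p).pow_mem hτ _
  have h1 := mul_smul_sub h (τ₁ := σ * τ ^ a * σ⁻¹) ((chiKer p).inv_mem hτ) y
  rw [conj_smul_sub h hτa, pow_smul_sub h hτ, inv_smul_sub h hτ, smul_smul, ha] at h1
  have h2 : (chi p σ)⁻¹ * chi p σ = 1 := inv_mul_cancel₀ (chi_ne_zero p σ)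
  rw [h2, one_smul, add_neg_cancel] at h1
  exact sub_eq_zero.mp h1

theorem conj_pow_mul_inv_mem_kerAction {τ : AlgebraicClosure ℚ ≃ₐ[ℚ] AlgebraicClosure ℚ}
    (hτ : τ ∈ chiKer p) (σ : AlgebraicClosure ℚ ≃ₐ[ℚ] AlgebraicClosure ℚ) :
    σ * τ ^ (cycloExp p σ) * σ⁻¹ * τ⁻¹ ∈ kerAction V :=
  conj_pow_mul_inv_mem_kerAction' h hτ σ rfl

end module

end Fermat.Agent.S14.Reduction
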