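import Mathlib
import Fermat.Prelude.Def_ExtCitation_AdmissibleExtension_v2
import Fermat.Agent.S14.Reduction.Module

/-!
# S14, Galois reduction: the index of the kernel of the action in the kernel of `χ`
-/

set_option autoImplicit false
set_option linter.style.haveILetI false
set_option linter.unusedSectionVars false

namespace Fermat.Agent.S14.Reduction

open ExtCitation

section index

variable {p : ℕ} [Fact p.Prime] {V : Type} [AddCommGroup V] [Module (ZMod p) V]
  [DistribMulAction (AlgebraicClosure ℚ ≃ₐ[ℚ] AlgebraicClosure ℚ) V]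
  [SMulCommClass (AlgebraicClosure ℚ ≃ₐ[ℚ] AlgebraicClosure ℚ) (ZMod p) V]
  {C : Submodule (ZMod p) V} (h : IsAdmissibleExtension p V C)

include h

lemma finite_V : Finite V := by
  apply Nat.finite_of_card_ne_zero
  rw [h.card_total]
  exact pow_ne_zero 2 (Fact.out : p.Prime).ne_zero

/-- `V` is spanned by `C` and any vector outside `C`. -/
lemma span_sup_eq_top {v : V} (hv : v ∉ C) : Submodule.span (ZMod p) {v} ⊔ C = ⊤ := by
  haveI := finite_V h
  set W := Submodule.span (ZMod p) {v} ⊔ C with hW
  have hCW : C ≤ W := le_sup_right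
  have hvW : v ∈ W := (le_sup_left : Submodule.span (ZMod p) {v} ≤ W) (Submodule.mem_span_singleton_self v)
  have hp : p.Prime := Fact.out
  -- cardinalities
  have hdvd1 : Nat.card W ∣ p ^ 2 := by
    rw [← h.card_total]
    exact AddSubgroup.card_addSubgroup_dvd_card W.toAddSubgroup
  have hdvd2 : p ∣ Nat.card W := by
    have h1 : Nat.card C ∣ Nat.card W :=
      AddSubgroup.card_dvd_of_le (show C.toAddSubgroup ≤ W.toAddSubgroup from hCW)
    rwa [h.card_sub] at h1
  have hne : Nat.card W ≠ p := by
    intro heq
    have : C = W := by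
      apply le_antisymm hCW
      have hsub : (C : Set V) ⊆ (W : Set V) := hCW
      have hcard : Nat.card (W : Set V) ≤ Nat.card (C : Set V) := by
        show Nat.card W ≤ Nat.card C
        rw [heq, h.card_sub]
      have := Set.eq_of_subset_of_ncard_le hsub hcard (Set.toFinite _)
      intro x hx
      have hx' : x ∈ (W : Set V) := hx
      rw [← this] at hx'
      exact hx'
    exact hv (this ▸ hvW)
  have hcard : Nat.card W = p ^ 2 := by
    obtain ⟨k, hk, hk'⟩ := (Nat.dvd_prime_pow hp).mp hdvd1
    interval_cases k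
    · rw [hk', pow_zero] at hdvd2
      exact absurd (Nat.le_of_dvd one_pos hdvd2) (not_le.mpr hp.one_lt)
    · rw [pow_one] at hk'
      exact absurd hk' hne
    · exact hk'
  -- conclude
  rw [eq_top_iff]
  intro x _
  have htop : W.toAddSubgroup = ⊤ :=
    AddSubgroup.eq_top_of_card_eq W.toAddSubgroup (hcard.trans h.card_total.symm)
  have hx : x ∈ W.toAddSubgroup := by rw [htop]; trivial
  exact hx

/-- An element of `ker χ` fixing one vector outside `C` acts trivially. -/
lemma mem_kerAction_of_smul_eq {τ : AlgebraicClosure ℚ ≃ₐ[ℚ] AlgebraicClosure ℚ}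
    {v : V} (hv : v ∉ C) (hτv : τ • v = v) : τ ∈ kerAction V := by
  intro x
  have hx : x ∈ Submodule.span (ZMod p) {v} ⊔ C := by rw [span_sup_eq_top h hv]; trivial
  obtain ⟨y, hy, c, hc, rfl⟩ := Submodule.mem_sup.mp hx
  obtain ⟨a, rfl⟩ := Submodule.mem_span_singleton.mp hy
  rw [smul_add, smul_comm, hτv, smul_eq_of_mem h τ hc]

/-- If `ker χ` does not act trivially on `V`, the kernel of the action has index `p` in it. -/
theorem relIndex_kerAction_chiKer (hnot : ¬ chiKer p ≤ kerAction V) :
    (kerAction V).relIndex (chiKer p) = p := by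
  obtain ⟨v, hv⟩ := exists_not_mem h
  haveI := finite_V h
  -- the homomorphism `τ ↦ τ v - v`
  let f : ↥(chiKer p) →* Multiplicative C :=
    { toFun := fun τ => Multiplicative.ofAdd ⟨τ.1 • v - v, smul_sub_mem h τ.2 v⟩
      map_one' := by
        apply Multiplicative.toAdd.injective
        apply Subtype.ext
        show (1 : AlgebraicClosure ℚ ≃ₐ[ℚ] AlgebraicClosure ℚ) • v - v = 0
        rw [one_smul, sub_self]
      map_mul' := fun τ₁ τ₂ => by
        apply Multiplicative.toAdd.injective
        apply Subtype.ext
        show (τ₁.1 * τ₂.1) • v - v = (τ₁.1 • v - v) + (τ₂.1 • v - v)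
        exact mul_smul_sub h τ₂.2 v }
  have hker : f.ker = (kerAction V).subgroupOf (chiKer p) := by
    ext τ
    rw [MonoidHom.mem_ker, Subgroup.mem_subgroupOf]
    constructor
    · intro hτ
      have h1 : τ.1 • v - v = 0 := by
        have := congrArg (fun c : Multiplicative C => ((Multiplicative.toAdd c : C) : V)) hτ
        simpa [f] using this
      exact mem_kerAction_of_smul_eq h hv (sub_eq_zero.mp h1)
    · intro hτ
      apply Multiplicative.toAdd.injective
      apply Subtype.ext
      show τ.1 • v - v = 0
      rw [hτ v, sub_self]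
  have hcardC : Nat.card (Multiplicative C) = p := by
    rw [Nat.card_congr Multiplicative.toAdd]
    exact h.card_sub
  have hrange : f.range = ⊤ := by
    haveI : Fact (Nat.card (Multiplicative C)).Prime := ⟨by rw [hcardC]; exact Fact.out⟩
    rcases Subgroup.eq_bot_or_eq_top_of_prime_card f.range with hbot | htop
    · exfalso
      apply hnot
      intro τ hτ
      have h1 : f ⟨τ, hτ⟩ = 1 := by
        have : f ⟨τ, hτ⟩ ∈ f.range := ⟨_, rfl⟩
        rw [hbot] at this
        exact Subgroup.mem_bot.mp this
      have h2 : (⟨τ, hτ⟩ : ↥(chiKer p)) ∈ f.ker := h1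
      rw [hker, Subgroup.mem_subgroupOf] at h2
      exact h2
    · exact htop
  rw [Subgroup.relIndex, ← hker, Subgroup.index_ker, hrange]
  rw [Nat.card_congr (Subgroup.topEquiv (G := Multiplicative C)).toEquiv, hcardC]

end index

end Fermat.Agent.S14.Reduction
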