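import Mathlib
import Fermat.Prelude.Def_ExtCitation_AdmissibleExtension_v2
import Fermat.Agent.S14.Reduction.Module

/-!
# S14, Galois reduction: the split case

If the kernel of the cyclotomic character acts trivially on `V`, then `Γ` acts through the abelian
group `(ℤ/p)ˣ` of order prime to `p`, and the `χ(σ₀)`-eigenspace of any `σ₀` with `χ(σ₀) ≠ 1` is a
`Γ`-stable complement of `C`.
-/

set_option autoImplicit false
set_option linter.style.haveILetI false
set_option linter.unusedSectionVars false

namespace Fermat.Agent.S14.Reduction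

open ExtCitation

/-- Instance-path repair: the default `Algebra ℚ (AlgebraicClosure ℚ)` is the division-ring one. -/
local instance qbarIsAlgebraic' : Algebra.IsAlgebraic ℚ (AlgebraicClosure ℚ) :=
  AlgebraicClosure.isAlgebraic ℚ

local instance qbarIsAlgClosure' : IsAlgClosure ℚ (AlgebraicClosure ℚ) :=
  ⟨inferInstance, inferInstance⟩

section

variable (p : ℕ) [Fact p.Prime]

lemma exists_primitiveRoot_qbar : ∃ ζ : AlgebraicClosure ℚ, IsPrimitiveRoot ζ p := by
  haveI : NeZero p := ⟨(Fact.out : p.Prime).ne_zero⟩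
  haveI : NeZero (p : AlgebraicClosure ℚ) := ⟨Nat.cast_ne_zero.mpr (NeZero.ne p)⟩
  exact HasEnoughRootsOfUnity.exists_primitiveRoot (AlgebraicClosure ℚ) p

/-- For `p ≥ 3` the mod `p` cyclotomic character is non-trivial. -/
theorem exists_chi_ne_one (h3 : 3 ≤ p) :
    ∃ σ : AlgebraicClosure ℚ ≃ₐ[ℚ] AlgebraicClosure ℚ, chi p σ ≠ 1 := by
  obtain ⟨ζ, hζ⟩ := exists_primitiveRoot_qbar p
  by_contra hcon
  push Not at hcon
  have hfix : ∀ σ : AlgebraicClosure ℚ ≃ₐ[ℚ] AlgebraicClosure ℚ, σ ζ = ζ :=
    fun σ => (chi_eq_one_iff p σ hζ).mp (hcon σ)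
  obtain ⟨q, hq⟩ := (InfiniteGalois.mem_range_algebraMap_iff_fixed (k := ℚ)
    (K := AlgebraicClosure ℚ) ζ).mpr hfix
  -- a rational primitive `p`-th root of unity forces `p ≤ 2`
  have hq' : IsPrimitiveRoot q p := by
    rw [← hq] at hζ
    exact hζ.of_map_of_injective (FaithfulSMul.algebraMap_injective ℚ (AlgebraicClosure ℚ))
  have hpow : q ^ p = 1 := hq'.pow_eq_one
  have hpodd : Odd p := (Fact.out : p.Prime).odd_of_ne_two (by omega)
  have hq1 : q = 1 := by
    have habs : |q| = 1 := by
      have h1 : |q| ^ p = 1 := by rw [← abs_pow, hpow, abs_one]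
      exact (pow_eq_one_iff_of_nonneg (abs_nonneg q) (Fact.out : p.Prime).ne_zero).mp h1
    rcases abs_eq (zero_le_one' ℚ) |>.mp habs with h | h
    · exact h
    · exfalso
      rw [h, hpodd.neg_one_pow] at hpow
      norm_num at hpow
  rw [hq1] at hq'
  have := hq'.eq_orderOf
  rw [orderOf_one] at this
  omega

end

section split

variable {p : ℕ} [Fact p.Prime] {V : Type} [AddCommGroup V] [Module (ZMod p) V]
  [DistribMulAction (AlgebraicClosure ℚ ≃ₐ[ℚ] AlgebraicClosure ℚ) V]
  [SMulCommClass (AlgebraicClosure ℚ ≃ₐ[ℚ] AlgebraicClosure ℚ) (ZMod p) V]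
  {C : Submodule (ZMod p) V} (h : IsAdmissibleExtension p V C)

include h

/-- The split case: if the kernel of the cyclotomic character acts trivially on `V` then `C` has
a Galois-stable complement. -/
theorem splitsGlobally_of_chiKer_le (h3 : 3 ≤ p) (hle : chiKer p ≤ kerAction V) :
    SplitsGlobally C := by
  obtain ⟨σ₀, hσ₀⟩ := exists_chi_ne_one p h3
  set e := chi p σ₀ with he
  have he1 : e - 1 ≠ 0 := sub_ne_zero.mpr hσ₀
  -- the eigenspace
  let C' : Submodule (ZMod p) V :=
    { carrier := {x | σ₀ • x = e • x}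
      add_mem' := fun {x y} hx hy => by
        show σ₀ • (x + y) = e • (x + y)
        rw [smul_add, smul_add, hx, hy]
      zero_mem' := by
        show σ₀ • (0 : V) = e • (0 : V)
        rw [smul_zero, smul_zero]
      smul_mem' := fun a x hx => by
        show σ₀ • (a • x) = e • (a • x)
        rw [smul_comm σ₀ a x, hx, smul_comm] }
  have hC' : ∀ x, x ∈ C' ↔ σ₀ • x = e • x := fun x => Iff.rfl
  refine ⟨C', fun σ x hx => ?_, ?_⟩
  · -- stability: `σ` and `σ₀` commute on `V`
    rw [hC'] at hx ⊢
    have hcomm : σ⁻¹ * σ₀⁻¹ * σ * σ₀ ∈ kerAction V := by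
      apply hle
      show chi p (σ⁻¹ * σ₀⁻¹ * σ * σ₀) = 1
      rw [chi_mul, chi_mul, chi_mul, chi_inv, chi_inv]
      have h1 := chi_ne_zero p σ
      have h2 := chi_ne_zero p σ₀
      field_simp
    have h1 := hcomm x
    rw [mul_smul, mul_smul, mul_smul] at h1
    have h2 : σ • σ₀ • x = σ₀ • σ • x := by
      have := congrArg (fun y => σ₀ • σ • y) h1
      simpa [smul_inv_smul] using this
    rw [← h2, hx, smul_comm]
  · constructor
    · -- `C ⊓ C' = ⊥`
      rw [Submodule.disjoint_def]
      intro x hxC hxC'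
      rw [hC', smul_eq_of_mem h σ₀ hxC] at hxC'
      have : (e - 1) • x = 0 := by rw [sub_smul, one_smul, ← hxC', sub_self]
      rcases smul_eq_zero.mp this with h0 | h0
      · exact absurd h0 he1
      · exact h0
    · -- `C ⊔ C' = ⊤`
      rw [codisjoint_iff, eq_top_iff]
      intro x _
      set c := σ₀ • x - e • x with hc
      have hcC : c ∈ C := smul_sub_chi_smul_mem h σ₀ x
      set t := (e - 1)⁻¹ with ht
      have hx' : x + t • c ∈ C' := by
        rw [hC', smul_add, smul_comm σ₀ t c, smul_eq_of_mem h σ₀ hcC, smul_add]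
        have h1 : σ₀ • x = e • x + c := by rw [hc]; abel
        rw [h1, smul_smul]
        have h2 : e * t = 1 + t := by
          rw [ht]
          field_simp
          ring
        rw [h2, add_smul, one_smul]
        abel
      have : x = -(t • c) + (x + t • c) := by abel
      rw [this]
      exact Submodule.add_mem_sup (C.neg_mem (C.smul_mem t hcC)) hx'

end split

end Fermat.Agent.S14.Reduction
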