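import Mathlib
import Fermat.Prelude.Def_ExtCitation_AdmissibleExtension_v2
import Fermat.Agent.S14.Reduction.Index
import Fermat.Agent.S14.Reduction.Split

/-!
# S14, Galois reduction: from admissible extensions to number fields
-/

set_option autoImplicit false
set_option linter.style.haveILetI false
set_option linter.unusedSectionVars false

namespace Fermat.Agent.S14.Reduction

open ExtCitation NumberField

/-- Instance-path repair: the default `Algebra ℚ (AlgebraicClosure ℚ)` is the division-ring one. -/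
local instance qbarIsAlgebraic₂ : Algebra.IsAlgebraic ℚ (AlgebraicClosure ℚ) :=
  AlgebraicClosure.isAlgebraic ℚ

local instance qbarIsAlgClosure₂ : IsAlgClosure ℚ (AlgebraicClosure ℚ) :=
  ⟨inferInstance, inferInstance⟩

/-- **The number field statement** consumed by the reduction: there is no cyclic unramified
extension `K` of degree `p` of `F = ℚ(ζ_p)`, Galois over `ℚ`, on whose Galois group
`Gal(F/ℚ)` acts through the inverse of the cyclotomic character. -/
def NFStatement (p : ℕ) [Fact p.Prime] : Prop :=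
  ∀ (F K : Type) [Field F] [NumberField F] [IsCyclotomicExtension {p} ℚ F] [Field K]
    [NumberField K] [Algebra F K] [IsGalois F K] [IsGalois ℚ K],
    Module.finrank F K = p →
    (∀ (P : Ideal (𝓞 K)), P.IsPrime → P ≠ ⊥ →
      ∀ τ : K ≃ₐ[F] K, (∀ x : 𝓞 K, τ • x - x ∈ P) → τ = 1) →
    ∀ (ζ : K), IsPrimitiveRoot ζ p →
    (∀ (σ : K ≃ₐ[ℚ] K) (τ : K ≃ₐ[F] K) (a : ℕ), σ ζ = ζ ^ a →
      σ * (τ.restrictScalars ℚ) ^ a * σ⁻¹ = τ.restrictScalars ℚ) → False

section openNormal

variable (N : Subgroup (AlgebraicClosure ℚ ≃ₐ[ℚ] AlgebraicClosure ℚ)) [N.Normal]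
  (hN : IsOpen (N : Set (AlgebraicClosure ℚ ≃ₐ[ℚ] AlgebraicClosure ℚ)))

include hN

lemma fixingSubgroup_fixedField_of_isOpen :
    (IntermediateField.fixedField N).fixingSubgroup = N := by
  have hcl : IsClosed (N : Set (AlgebraicClosure ℚ ≃ₐ[ℚ] AlgebraicClosure ℚ)) :=
    N.isClosed_of_isOpen hN
  exact InfiniteGalois.fixingSubgroup_fixedField ⟨N, hcl⟩

lemma finiteDimensional_fixedField :
    FiniteDimensional ℚ (IntermediateField.fixedField N) := by
  have h1 : IsOpen ((IntermediateField.fixedField N).fixingSubgroup :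
      Set (AlgebraicClosure ℚ ≃ₐ[ℚ] AlgebraicClosure ℚ)) := by
    rw [fixingSubgroup_fixedField_of_isOpen N hN]; exact hN
  exact (InfiniteGalois.isOpen_iff_finite _).mp h1

lemma isGalois_fixedField : IsGalois ℚ (IntermediateField.fixedField N) := by
  have h1 : ((IntermediateField.fixedField N).fixingSubgroup).Normal := by
    rw [fixingSubgroup_fixedField_of_isOpen N hN]; infer_instance
  exact (InfiniteGalois.normal_iff_isGalois _).mp h1

end openNormal

section restrict

variable (K : IntermediateField ℚ (AlgebraicClosure ℚ)) [Normal ℚ K]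

lemma coe_restrictNormalHom (σ : AlgebraicClosure ℚ ≃ₐ[ℚ] AlgebraicClosure ℚ) (x : K) :
    ((AlgEquiv.restrictNormalHom K σ x : K) : AlgebraicClosure ℚ) = σ (x : AlgebraicClosure ℚ) :=
  AlgEquiv.restrictNormal_commutes σ K x

lemma ker_restrictNormalHom :
    (AlgEquiv.restrictNormalHom (F := ℚ) (K₁ := AlgebraicClosure ℚ) K).ker = K.fixingSubgroup := by
  ext σ
  rw [MonoidHom.mem_ker, IntermediateField.mem_fixingSubgroup_iff]
  constructor
  · intro h x hx
    have := coe_restrictNormalHom K σ ⟨x, hx⟩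
    rw [h] at this
    exact this.symm
  · intro h
    refine AlgEquiv.ext fun x => Subtype.ext ?_
    rw [coe_restrictNormalHom]
    exact h x x.2

end restrict

/-- The inertia lifting property (proved in `Lift.lean`). -/
def InertiaLift : Prop :=
  ∀ (K : IntermediateField ℚ (AlgebraicClosure ℚ)) [FiniteDimensional ℚ K] [IsGalois ℚ K]
    [NumberField K] (P : Ideal (𝓞 K)), P.IsPrime → P ≠ ⊥ →
    ∀ g : K ≃ₐ[ℚ] K, (∀ x : 𝓞 K, ∃ y ∈ P, (y : K) = g (x : K) - (x : K)) →
    ∃ (ℓ : ℕ) (_ : ℓ.Prime) (A : ValuationSubring (AlgebraicClosure ℚ)),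
      A.LiesOverPrime ℓ ∧
      ∃ σ ∈ A.inertiaSubgroupIn ℚ, AlgEquiv.restrictNormalHom K σ = g

section main

variable {p : ℕ} [Fact p.Prime] {V : Type} [AddCommGroup V] [Module (ZMod p) V]
  [DistribMulAction (AlgebraicClosure ℚ ≃ₐ[ℚ] AlgebraicClosure ℚ) V]
  [SMulCommClass (AlgebraicClosure ℚ ≃ₐ[ℚ] AlgebraicClosure ℚ) (ZMod p) V]
  {C : Submodule (ZMod p) V}

/-- An element of an inertia group at a prime `ℓ ≠ p`, or an element of `ker χ` in an inertia
group at `p`, acts trivially on `V`. -/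
lemma mem_kerAction_of_mem_inertia (h : IsAdmissibleExtension p V C)
    {ℓ : ℕ} (hℓ : ℓ.Prime) {A : ValuationSubring (AlgebraicClosure ℚ)} (hA : A.LiesOverPrime ℓ)
    {σ : AlgebraicClosure ℚ ≃ₐ[ℚ] AlgebraicClosure ℚ} (hσ : σ ∈ A.inertiaSubgroupIn ℚ)
    (hχ : σ ∈ chiKer p) : σ ∈ kerAction V := by
  by_cases hℓp : ℓ = p
  · subst hℓp
    obtain ⟨C', hC', hcompl⟩ := h.locally_split A hA
    have hσD : σ ∈ A.decompositionSubgroup ℚ := by
      obtain ⟨s, _, rfl⟩ := hσ
      exact s.2
    intro x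
    have hx : x ∈ C ⊔ C' := by rw [hcompl.sup_eq_top]; trivial
    obtain ⟨c, hc, c', hc', rfl⟩ := Submodule.mem_sup.mp hx
    have h1 : σ • c' - c' ∈ C := smul_sub_mem h hχ c'
    have h2 : σ • c' - c' ∈ C' := C'.sub_mem (hC' σ hσD c' hc') hc'
    have h3 : σ • c' - c' = 0 := by
      have := hcompl.disjoint
      rw [Submodule.disjoint_def] at this
      exact this _ h1 h2
    rw [smul_add, smul_eq_of_mem h σ hc, sub_eq_zero.mp h3]
  · exact fun x => h.unramified_outside ℓ hℓ hℓp A hA σ hσ x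

theorem splitsGlobally_of_NFStatement (h3 : 3 ≤ p) (hNF : NFStatement p) (hlift : InertiaLift)
    (h : IsAdmissibleExtensionCts p V C) : SplitsGlobally C := by
  have hadm : IsAdmissibleExtension p V C := h.toIsAdmissibleExtension
  by_cases hle : chiKer p ≤ kerAction V
  · exact splitsGlobally_of_chiKer_le hadm h3 hle
  exfalso
  haveI : NeZero p := ⟨(Fact.out : p.Prime).ne_zero⟩
  -- the field cut out by `V`
  set N := kerAction V with hNdef
  have hN : IsOpen (N : Set (AlgebraicClosure ℚ ≃ₐ[ℚ] AlgebraicClosure ℚ)) := h.open_kernel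
  set K := IntermediateField.fixedField N with hK
  haveI hfd : FiniteDimensional ℚ K := finiteDimensional_fixedField N hN
  haveI hgal : IsGalois ℚ K := isGalois_fixedField N hN
  haveI : NumberField K := { to_charZero := inferInstance, to_finiteDimensional := hfd }
  have hfix : K.fixingSubgroup = N := fixingSubgroup_fixedField_of_isOpen N hN
  -- the restriction map
  set res := AlgEquiv.restrictNormalHom (F := ℚ) (K₁ := AlgebraicClosure ℚ) K with hres
  have hres_surj : Function.Surjective res := AlgEquiv.restrictNormalHom_surjective _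
  have hres_ker : res.ker = N := by rw [hres, ker_restrictNormalHom, hfix]
  -- the root of unity
  obtain ⟨ζ, hζ⟩ := exists_primitiveRoot_qbar p
  have hζK : ζ ∈ K := by
    rw [hK, IntermediateField.mem_fixedField_iff]
    intro σ hσ
    exact (chi_eq_one_iff p σ hζ).mp (kerAction_le_chiKer hadm hσ)
  set ζK : K := ⟨ζ, hζK⟩ with hζKdef
  have hζK' : IsPrimitiveRoot ζK p :=
    hζ.of_map_of_injective (f := K.val) (Subtype.val_injective)
  have hresζ : ∀ σ : AlgebraicClosure ℚ ≃ₐ[ℚ] AlgebraicClosure ℚ,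
      res σ ζK = ζK ↔ σ ∈ chiKer p := by
    intro σ
    rw [mem_chiKer, chi_eq_one_iff p σ hζ]
    constructor
    · intro h1
      have := coe_restrictNormalHom K σ ζK
      rw [h1] at this
      exact this.symm
    · intro h1
      apply Subtype.ext
      rw [coe_restrictNormalHom]
      exact h1
  set F := IntermediateField.adjoin ℚ {ζK} with hF
  haveI : IsCyclotomicExtension {p} ℚ F :=
    hζK'.intermediateField_adjoin_isCyclotomicExtension ℚ
  have hζF : ζK ∈ F := IntermediateField.mem_adjoin_simple_self ℚ ζK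
  -- the fixing subgroup of `F`
  have hfixF : ∀ g : K ≃ₐ[ℚ] K, g ∈ F.fixingSubgroup ↔ g ζK = ζK := by
    intro g
    rw [IntermediateField.mem_fixingSubgroup_iff]
    constructor
    · exact fun h1 => h1 ζK hζF
    · intro h1 x hx
      induction hx using IntermediateField.adjoin_induction with
      | mem x hx => rw [Set.mem_singleton_iff.mp hx]; exact h1
      | algebraMap x => exact g.commutes x
      | add x y _ _ hx hy => rw [map_add, hx, hy]
      | inv x _ hx => rw [map_inv₀, hx]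
      | mul x y _ _ hx hy => rw [map_mul, hx, hy]
  have hmap : F.fixingSubgroup = (chiKer p).map res := by
    ext g
    rw [hfixF, Subgroup.mem_map]
    constructor
    · intro h1
      obtain ⟨σ, rfl⟩ := hres_surj g
      exact ⟨σ, (hresζ σ).mp h1, rfl⟩
    · rintro ⟨σ, hσ, rfl⟩
      exact (hresζ σ).mpr hσ
  have hdeg : Module.finrank F K = p := by
    rw [← IsGalois.card_aut_eq_finrank,
      ← Nat.card_congr (IntermediateField.fixingSubgroupEquiv F).toEquiv, hmap,
      ← Subgroup.relIndex_ker, hres_ker]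
    exact relIndex_kerAction_chiKer hadm hle
  -- lifting elements of `Gal(K/F)`
  have hliftτ : ∀ τ' : K ≃ₐ[F] K, ∃ τ : AlgebraicClosure ℚ ≃ₐ[ℚ] AlgebraicClosure ℚ,
      τ ∈ chiKer p ∧ res τ = τ'.restrictScalars ℚ := by
    intro τ'
    obtain ⟨τ, hτ⟩ := hres_surj (τ'.restrictScalars ℚ)
    refine ⟨τ, (hresζ τ).mp ?_, hτ⟩
    rw [hτ]
    exact τ'.commutes ⟨ζK, hζF⟩
  refine hNF F K hdeg ?_ ζK hζK' ?_
  · -- unramified
    intro P hP hP0 τ' hτ'
    obtain ⟨τ, hτχ, hτ⟩ := hliftτ τ'
    obtain ⟨ℓ, hℓ, A, hA, σ, hσ, hσg⟩ := hlift K P hP hP0 (τ'.restrictScalars ℚ) (fun x => by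
      refine ⟨τ' • x - x, hτ' x, ?_⟩
      rfl)
    have hσχ : σ ∈ chiKer p := by
      rw [← hresζ σ, hσg]
      exact τ'.commutes ⟨ζK, hζF⟩
    have hσN : σ ∈ res.ker := by
      rw [hres_ker]
      exact mem_kerAction_of_mem_inertia hadm hℓ hA hσ hσχ
    have h1 : τ'.restrictScalars ℚ = 1 := by rw [← hσg]; exact hσN
    exact AlgEquiv.ext fun x => congrArg (fun g : K ≃ₐ[ℚ] K => g x) h1
  · -- the conjugation action
    intro σ' τ' a ha
    obtain ⟨σ, rfl⟩ := hres_surj σ'
    obtain ⟨τ, hτχ, hτ⟩ := hliftτ τ'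
    have hσζ : σ ζ = ζ ^ a := by
      have h1 := coe_restrictNormalHom K σ ζK
      rw [ha] at h1
      rw [← h1]
      rfl
    have haχ : (a : ZMod p) = chi p σ := by
      rw [apply_of_pow_eq_one p σ hζ.pow_eq_one] at hσζ
      have hmod : ∀ n : ℕ, ζ ^ (n % p) = ζ ^ n := by
        intro n
        have := pow_mod_orderOf ζ n
        rwa [← hζ.eq_orderOf] at this
      have h1 : cycloExp p σ ≡ a [MOD p] := by
        have h2 : ζ ^ (cycloExp p σ % p) = ζ ^ (a % p) := by rw [hmod, hmod]; exact hσζ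
        exact hζ.pow_inj (Nat.mod_lt _ (NeZero.pos p)) (Nat.mod_lt _ (NeZero.pos p)) h2
      rw [chi, (ZMod.natCast_eq_natCast_iff _ _ _).mpr h1]
    have hmem : σ * τ ^ a * σ⁻¹ * τ⁻¹ ∈ res.ker := by
      rw [hres_ker]
      exact conj_pow_mul_inv_mem_kerAction' hadm hτχ σ haχ
    rw [MonoidHom.mem_ker, map_mul, map_mul, map_mul, map_pow, map_inv, map_inv, hτ] at hmem
    exact mul_inv_eq_one.mp hmem

theorem extVanishingCts_of_NFStatement {p : ℕ} [Fact p.Prime] (h3 : 3 ≤ p) (hNF : NFStatement p)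
    (hlift : InertiaLift) : ExtVanishingCts p :=
  fun _ _ _ _ _ _ h => splitsGlobally_of_NFStatement h3 hNF hlift h

end main

end Fermat.Agent.S14.Reduction
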