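import Mathlib
import Fermat.Agent.S54.Frobenius

/-!
# S14, Galois reduction: inertia at a prime of the ring of algebraic integers

An automorphism of `ℚ̄` fixing a prime `Q` of the ring of all algebraic integers and acting trivially
on the residue ring lies in the inertia subgroup of the corresponding valuation subring.
-/

set_option autoImplicit false
set_option linter.style.haveILetI false
set_option linter.unusedSectionVars false

namespace Fermat.Agent.S14.Reduction

open Fermat.Agent.S54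

attribute [local instance] Fermat.Agent.S54.galAction

open scoped Pointwise

section

variable {ℓ : ℕ} (hℓ : ℓ.Prime) (Q : Ideal intQbar) [Q.IsPrime]
  [hQP : Q.LiesOver (Ideal.span {(ℓ : ℤ)})]

theorem mem_inertiaSubgroupIn_valSubring
    {σ : AlgebraicClosure ℚ ≃ₐ[ℚ] AlgebraicClosure ℚ} (hσ : σ • Q = Q)
    (htriv : ∀ b : intQbar, σ • b - b ∈ Q) :
    σ ∈ (valSubring hℓ Q).inertiaSubgroupIn ℚ := by
  have hσD : σ ∈ (valSubring hℓ Q).decompositionSubgroup ℚ :=
    mem_decompositionSubgroup_valSubring hℓ Q hσ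
  refine ⟨⟨σ, hσD⟩, ?_, rfl⟩
  show (⟨σ, hσD⟩ : (valSubring hℓ Q).decompositionSubgroup ℚ) ∈
    (valSubring hℓ Q).inertiaSubgroup ℚ
  rw [ValuationSubring.inertiaSubgroup, MonoidHom.mem_ker]
  ext x
  show (⟨σ, hσD⟩ : (valSubring hℓ Q).decompositionSubgroup ℚ) • x = x
  obtain ⟨a, rfl⟩ := IsLocalRing.residue_surjective x
  rw [← IsLocalRing.ResidueField.residue_smul]
  refine Ideal.Quotient.eq.mpr ?_
  rw [← ValuationSubring.coe_mem_nonunits_iff]
  obtain ⟨b, s, hs, hbs⟩ := a.2
  have hσs : σ • s ∉ Q := by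
    intro hmem
    apply hs
    rw [← hσ] at hmem
    exact Ideal.smul_mem_pointwise_smul_iff.mp hmem
  have hden : σ • s * s ∉ Q := by
    intro hmem
    rcases Ideal.IsPrime.mem_or_mem ‹_› hmem with h1 | h1
    · exact hσs h1
    · exact hs h1
  have hnum : σ • b * s - b * σ • s ∈ Q := by
    have h1 : (σ • b - b) * s ∈ Q := Q.mul_mem_right _ (htriv b)
    have h2 : b * (σ • s - s) ∈ Q := Q.mul_mem_left _ (htriv s)
    have : σ • b * s - b * σ • s = (σ • b - b) * s - b * (σ • s - s) := by ring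
    rw [this]
    exact Q.sub_mem h1 h2
  refine mem_nonunits_valSubring hℓ Q hnum hden ?_
  have hσa : σ (a : AlgebraicClosure ℚ) * σ (s : AlgebraicClosure ℚ) =
      σ (b : AlgebraicClosure ℚ) := by rw [← map_mul, hbs]
  have hcoe : (((⟨σ, hσD⟩ : (valSubring hℓ Q).decompositionSubgroup ℚ) • a - a :
      valSubring hℓ Q) : AlgebraicClosure ℚ) = σ (a : AlgebraicClosure ℚ) - (a : AlgebraicClosure ℚ) :=
    rfl
  rw [hcoe]
  push_cast
  rw [coe_galAction_smul, coe_galAction_smul, ← hσa, ← hbs]
  ring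

end

end Fermat.Agent.S14.Reduction
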