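import Mathlib
import Fermat.Agent.S54.Frobenius
import Fermat.Agent.S14.Reduction.LiftVal
import Fermat.Agent.S14.Reduction.Field

/-!
# S14, Galois reduction: lifting inertia from a number field to `ℚ̄`
-/

set_option autoImplicit false
set_option linter.style.haveILetI false
set_option linter.unusedSectionVars false

namespace Fermat.Agent.S14.Reduction

open Fermat.Agent.S54 NumberField

attribute [local instance] Fermat.Agent.S54.galAction

open scoped Pointwise

/-- Instance-path repair: the default `Algebra ℚ (AlgebraicClosure ℚ)` is the division-ring one. -/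
local instance qbarIsAlgebraic₃ : Algebra.IsAlgebraic ℚ (AlgebraicClosure ℚ) :=
  AlgebraicClosure.isAlgebraic ℚ

local instance qbarIsAlgClosure₃ : IsAlgClosure ℚ (AlgebraicClosure ℚ) :=
  ⟨inferInstance, inferInstance⟩

section setup

variable (K : IntermediateField ℚ (AlgebraicClosure ℚ)) [NumberField K]

/-- The inclusion of the ring of integers of `K` into the ring of all algebraic integers. -/
noncomputable def toIntQbar : 𝓞 K →+* intQbar where
  toFun x := ⟨((x : K) : AlgebraicClosure ℚ), mem_intQbar.mpr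
    ((RingOfIntegers.isIntegral_coe x).map (IsScalarTower.toAlgHom ℤ K (AlgebraicClosure ℚ)))⟩
  map_one' := Subtype.ext (by simp)
  map_mul' x y := Subtype.ext (by simp)
  map_zero' := Subtype.ext (by simp)
  map_add' x y := Subtype.ext (by simp)

lemma coe_toIntQbar (x : 𝓞 K) :
    ((toIntQbar K x : intQbar) : AlgebraicClosure ℚ) = ((x : K) : AlgebraicClosure ℚ) := rfl

lemma toIntQbar_injective : Function.Injective (toIntQbar K) := by
  intro x y h
  have := congrArg (fun b : intQbar => (b : AlgebraicClosure ℚ)) h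
  simp only [coe_toIntQbar] at this
  exact RingOfIntegers.ext (Subtype.ext this)

/-- Every algebraic integer lying in `K` comes from the ring of integers of `K`. -/
lemma exists_toIntQbar_eq {b : intQbar} (hb : (b : AlgebraicClosure ℚ) ∈ K) :
    ∃ x : 𝓞 K, toIntQbar K x = b := by
  have hint : IsIntegral ℤ (⟨(b : AlgebraicClosure ℚ), hb⟩ : K) := by
    have h1 : IsIntegral ℤ (b : AlgebraicClosure ℚ) := b.2
    exact (isIntegral_algebraMap_iff (A := K) (B := AlgebraicClosure ℚ)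
      (FaithfulSMul.algebraMap_injective K (AlgebraicClosure ℚ))).mp h1
  exact ⟨⟨⟨(b : AlgebraicClosure ℚ), hb⟩, hint⟩, Subtype.ext rfl⟩

end setup

section lift

variable (K : IntermediateField ℚ (AlgebraicClosure ℚ)) [FiniteDimensional ℚ K] [IsGalois ℚ K]
  [NumberField K]

/-- The `𝓞 K`-algebra structure on the ring of all algebraic integers. -/
@[reducible] noncomputable def algebraIntQbar : Algebra (𝓞 K) intQbar := (toIntQbar K).toAlgebra

attribute [local instance] algebraIntQbar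

lemma algebraMap_intQbar_apply (x : 𝓞 K) : algebraMap (𝓞 K) intQbar x = toIntQbar K x := rfl

lemma smul_toIntQbar {n : AlgebraicClosure ℚ ≃ₐ[ℚ] AlgebraicClosure ℚ}
    (hn : n ∈ K.fixingSubgroup) (x : 𝓞 K) : n • toIntQbar K x = toIntQbar K x := by
  apply Subtype.ext
  rw [coe_galAction_smul, coe_toIntQbar]
  exact (IntermediateField.mem_fixingSubgroup_iff K n).mp hn _ (x : K).2

instance smulCommClass_fixingSubgroup : SMulCommClass K.fixingSubgroup (𝓞 K) intQbar where
  smul_comm n x b := by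
    rw [Algebra.smul_def, Algebra.smul_def, smul_mul', algebraMap_intQbar_apply]
    congr 1
    exact smul_toIntQbar K n.2 x

instance isInvariant_fixingSubgroup : Algebra.IsInvariant (𝓞 K) intQbar K.fixingSubgroup where
  isInvariant b hb := by
    have hbK : (b : AlgebraicClosure ℚ) ∈ K := by
      rw [← InfiniteGalois.fixedField_fixingSubgroup K, IntermediateField.mem_fixedField_iff]
      intro n hn
      exact congrArg Subtype.val (hb ⟨n, hn⟩)
    obtain ⟨x, hx⟩ := exists_toIntQbar_eq K hbK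
    exact ⟨x, hx⟩

instance isIntegral_intQbar : Algebra.IsIntegral (𝓞 K) intQbar :=
  ⟨fun b => (Algebra.IsIntegral.isIntegral (R := ℤ) b).tower_top⟩

instance faithfulSMul_intQbar : FaithfulSMul (𝓞 K) intQbar :=
  (faithfulSMul_iff_algebraMap_injective _ _).mpr (toIntQbar_injective K)

/-- Lifting an element of the inertia group of a prime of `K` to the inertia group of a prime of
the ring of all algebraic integers. -/
theorem exists_lift_of_mem_inertia (P : Ideal (𝓞 K)) [hP : P.IsPrime] (hP0 : P ≠ ⊥)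
    (g : K ≃ₐ[ℚ] K) (hg : ∀ x : 𝓞 K, ∃ y ∈ P, (y : K) = g (x : K) - (x : K)) :
    ∃ (ℓ : ℕ) (_ : ℓ.Prime) (A : ValuationSubring (AlgebraicClosure ℚ)),
      A.LiesOverPrime ℓ ∧
      ∃ σ ∈ A.inertiaSubgroupIn ℚ, AlgEquiv.restrictNormalHom K σ = g := by
  classical
  -- topology
  letI : TopologicalSpace intQbar := ⊥
  haveI : DiscreteTopology intQbar := ⟨rfl⟩
  haveI := galAction_continuousSMul
  have hNclosed : IsClosed (K.fixingSubgroup :
      Set (AlgebraicClosure ℚ ≃ₐ[ℚ] AlgebraicClosure ℚ)) :=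
    InfiniteGalois.fixingSubgroup_isClosed K
  haveI : CompactSpace K.fixingSubgroup := isCompact_iff_compactSpace.mp hNclosed.isCompact
  -- the prime `P` is maximal; a prime `Q` of the algebraic integers above it
  haveI hPmax : P.IsMaximal := Ideal.IsPrime.isMaximal hP hP0
  obtain ⟨Q, hQmax, hQP⟩ := Ideal.exists_maximal_ideal_liesOver_of_isIntegral (S := intQbar) P
  haveI := hQmax
  haveI := hQP
  haveI hQprime : Q.IsPrime := hQmax.isPrime
  have hmemQ : ∀ x : 𝓞 K, toIntQbar K x ∈ Q ↔ x ∈ P := by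
    intro x
    rw [hQP.over]
    rfl
  -- the residue characteristic
  haveI : Finite (𝓞 K ⧸ P) := Ideal.finiteQuotientOfFreeOfNeBot P hP0
  letI : Field (𝓞 K ⧸ P) := Ideal.Quotient.field P
  obtain ⟨ℓ, hchar⟩ := CharP.exists (𝓞 K ⧸ P)
  have hℓ : ℓ.Prime := by
    rcases CharP.char_is_prime_or_zero (𝓞 K ⧸ P) ℓ with h | h
    · exact h
    · exfalso
      subst h
      haveI := CharP.charP_to_charZero (𝓞 K ⧸ P)
      exact not_finite (𝓞 K ⧸ P)
  have hℓP : ((ℓ : ℕ) : 𝓞 K) ∈ P := by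
    rw [← Ideal.Quotient.eq_zero_iff_mem, map_natCast]
    exact CharP.cast_eq_zero _ ℓ
  haveI hspanmax : (Ideal.span {(ℓ : ℤ)}).IsMaximal :=
    PrincipalIdealRing.isMaximal_of_irreducible (Nat.prime_iff_prime_int.mp hℓ).irreducible
  haveI hQℓ : Q.LiesOver (Ideal.span {(ℓ : ℤ)}) := by
    constructor
    refine hspanmax.eq_of_le (Ideal.IsPrime.ne_top (Ideal.IsPrime.under ℤ Q)) ?_
    rw [Ideal.span_singleton_le_iff_mem, Ideal.under_def, Ideal.mem_comap]
    have h1 : toIntQbar K ((ℓ : ℕ) : 𝓞 K) ∈ Q := (hmemQ _).mpr hℓP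
    have h2 : algebraMap ℤ intQbar (ℓ : ℤ) = toIntQbar K ((ℓ : ℕ) : 𝓞 K) := by
      rw [map_natCast]
      simp
    rw [h2]
    exact h1
  refine ⟨ℓ, hℓ, valSubring hℓ Q, liesOverPrime_valSubring hℓ Q, ?_⟩
  -- any lift of `g` acts trivially modulo `Q` on the image of `𝓞 K`
  have hkey : ∀ σ : AlgebraicClosure ℚ ≃ₐ[ℚ] AlgebraicClosure ℚ,
      AlgEquiv.restrictNormalHom K σ = g →
      ∀ x : 𝓞 K, σ • toIntQbar K x - toIntQbar K x ∈ Q := by
    intro σ hσ x
    obtain ⟨y, hy, hyx⟩ := hg x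
    have h1 : σ • toIntQbar K x - toIntQbar K x = toIntQbar K y := by
      apply Subtype.ext
      have h2 : ((σ • toIntQbar K x - toIntQbar K x : intQbar) : AlgebraicClosure ℚ) =
          σ ((x : K) : AlgebraicClosure ℚ) - ((x : K) : AlgebraicClosure ℚ) := rfl
      rw [h2, coe_toIntQbar, hyx, ← hσ, ← coe_restrictNormalHom K σ (x : K)]
      rfl
    rw [h1]
    exact (hmemQ y).mpr hy
  -- a lift of `g`
  obtain ⟨σ₁, hσ₁⟩ := AlgEquiv.restrictNormalHom_surjective (F := ℚ) (K₁ := K)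
    (AlgebraicClosure ℚ) g
  have hunder : (σ₁ • Q).under (𝓞 K) = Q.under (𝓞 K) := by
    ext x
    rw [Ideal.under_def, Ideal.under_def, Ideal.mem_comap, Ideal.mem_comap,
      algebraMap_intQbar_apply, Ideal.mem_pointwise_smul_iff_inv_smul_mem]
    obtain ⟨x', hx'⟩ := exists_toIntQbar_eq K (b := σ₁⁻¹ • toIntQbar K x) (by
      rw [coe_galAction_smul, coe_toIntQbar, ← coe_restrictNormalHom K σ₁⁻¹ (x : K)]
      exact Subtype.mem _)
    have h1 := hkey σ₁ hσ₁ x'
    rw [hx', smul_inv_smul] at h1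
    constructor
    · intro h
      have := Q.add_mem h1 h
      simpa using this
    · intro h
      have := Q.sub_mem h h1
      simpa using this
  obtain ⟨n₁, hn₁⟩ := Algebra.IsInvariant.exists_smul_of_under_eq_of_profinite (A := 𝓞 K)
    (B := intQbar) (G := K.fixingSubgroup) Q (σ₁ • Q) hunder.symm
  have hresn : ∀ n : K.fixingSubgroup,
      AlgEquiv.restrictNormalHom K (n : AlgebraicClosure ℚ ≃ₐ[ℚ] AlgebraicClosure ℚ) = 1 := by
    intro n
    have : (n : AlgebraicClosure ℚ ≃ₐ[ℚ] AlgebraicClosure ℚ) ∈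
        (AlgEquiv.restrictNormalHom (F := ℚ) (K₁ := AlgebraicClosure ℚ) K).ker := by
      rw [ker_restrictNormalHom]; exact n.2
    exact this
  set σ₂ : AlgebraicClosure ℚ ≃ₐ[ℚ] AlgebraicClosure ℚ :=
    (n₁ : AlgebraicClosure ℚ ≃ₐ[ℚ] AlgebraicClosure ℚ)⁻¹ * σ₁ with hσ₂def
  have hσ₂Q : σ₂ • Q = Q := by
    rw [hσ₂def, mul_smul, hn₁]
    exact inv_smul_smul (n₁ : AlgebraicClosure ℚ ≃ₐ[ℚ] AlgebraicClosure ℚ) Q
  have hσ₂ : AlgEquiv.restrictNormalHom K σ₂ = g := by
    rw [hσ₂def, map_mul, map_inv, hresn, hσ₁, inv_one, one_mul]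
  -- the automorphism of the residue field of `Q` induced by `σ₂`
  let e : intQbar ≃+* intQbar :=
    MulSemiringAction.toRingEquiv (AlgebraicClosure ℚ ≃ₐ[ℚ] AlgebraicClosure ℚ) intQbar σ₂
  have he : ∀ b : intQbar, e b = σ₂ • b := fun _ => rfl
  have hmap : Q = Q.map (e : intQbar →+* intQbar) := by
    have h1 : σ₂ • Q = Q.map (e : intQbar →+* intQbar) := rfl
    rw [← h1, hσ₂Q]
  let φr : (intQbar ⧸ Q) ≃+* (intQbar ⧸ Q) := Ideal.quotientEquiv Q Q e hmap
  have hφr : ∀ b : intQbar, φr (Ideal.Quotient.mk Q b) = Ideal.Quotient.mk Q (σ₂ • b) :=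
    fun b => Ideal.quotientEquiv_mk Q Q e hmap b
  let φ : (intQbar ⧸ Q) ≃ₐ[𝓞 K ⧸ P] (intQbar ⧸ Q) :=
    AlgEquiv.ofRingEquiv (f := φr) (by
      intro x
      obtain ⟨a, rfl⟩ := Ideal.Quotient.mk_surjective x
      rw [Ideal.Quotient.algebraMap_mk_of_liesOver, hφr, Ideal.Quotient.eq,
        algebraMap_intQbar_apply]
      exact hkey σ₂ hσ₂ a)
  obtain ⟨n₂, hn₂⟩ := Ideal.Quotient.stabilizerHom_surjective_of_profinite
    (G := K.fixingSubgroup) P Q φ
  have hn₂b : ∀ b : intQbar,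
      ((n₂ : K.fixingSubgroup) : AlgebraicClosure ℚ ≃ₐ[ℚ] AlgebraicClosure ℚ) • b - σ₂ • b ∈ Q := by
    intro b
    have h1 := DFunLike.congr_fun hn₂ (Ideal.Quotient.mk Q b)
    rw [Ideal.Quotient.stabilizerHom_apply] at h1
    have h2 : φ (Ideal.Quotient.mk Q b) = Ideal.Quotient.mk Q (σ₂ • b) := hφr b
    rw [h2] at h1
    exact Ideal.Quotient.eq.mp h1
  have hn₂Q : ((n₂ : K.fixingSubgroup) : AlgebraicClosure ℚ ≃ₐ[ℚ] AlgebraicClosure ℚ) • Q = Q :=
    n₂.2
  set σ : AlgebraicClosure ℚ ≃ₐ[ℚ] AlgebraicClosure ℚ :=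
    ((n₂ : K.fixingSubgroup) : AlgebraicClosure ℚ ≃ₐ[ℚ] AlgebraicClosure ℚ)⁻¹ * σ₂ with hσdef
  have hσQ : σ • Q = Q := by
    rw [hσdef, mul_smul, hσ₂Q, inv_smul_eq_iff, hn₂Q]
  have hσtriv : ∀ b : intQbar, σ • b - b ∈ Q := by
    intro b
    have h1 : -(((n₂ : K.fixingSubgroup) : AlgebraicClosure ℚ ≃ₐ[ℚ] AlgebraicClosure ℚ) • b -
        σ₂ • b) ∈ Q := Q.neg_mem (hn₂b b)
    have h2 := Ideal.smul_mem_pointwise_smul
      (((n₂ : K.fixingSubgroup) : AlgebraicClosure ℚ ≃ₐ[ℚ] AlgebraicClosure ℚ)⁻¹) _ Q h1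
    have h3 : ((n₂ : K.fixingSubgroup) : AlgebraicClosure ℚ ≃ₐ[ℚ] AlgebraicClosure ℚ)⁻¹ • Q = Q := by
      rw [inv_smul_eq_iff, hn₂Q]
    rw [h3, smul_neg, smul_sub, inv_smul_smul, neg_sub, ← mul_smul] at h2
    exact h2
  refine ⟨σ, mem_inertiaSubgroupIn_valSubring hℓ Q hσQ hσtriv, ?_⟩
  rw [hσdef, map_mul, map_inv, hresn, hσ₂, inv_one, one_mul]

/-- The inertia lifting property. -/
theorem inertiaLift : InertiaLift := by
  intro K _ _ _ P hP hP0 g hg
  haveI := hP
  exact exists_lift_of_mem_inertia K P hP0 g hg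

end lift

end Fermat.Agent.S14.Reduction
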