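import Mathlib
import Fermat.Prelude.Def_ExtCitation_AdmissibleExtension_v2
import Fermat.Agent.S14.Reduction.Field
import Fermat.Agent.S14.Reduction.Lift

/-!
# S14, Galois reduction: main statement

`ExtVanishingCts p` follows from the number field statement `NFStatement p`
(see `Fermat/Agent/S14/Reduction/Field.lean`).
-/

set_option autoImplicit false

namespace Fermat.Agent.S14.Reduction

open ExtCitation

/-- **The Galois reduction.**  If there is no cyclic unramified extension of degree `p` of
`ℚ(ζ_p)`, Galois over `ℚ`, on whose Galois group `Gal(ℚ(ζ_p)/ℚ)` acts through `ω⁻¹`, then every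
admissible extension of `μ_p` by `ℤ/p` splits. -/
theorem extVanishingCts_of_nf {p : ℕ} [Fact p.Prime] (h3 : 3 ≤ p) (hNF : NFStatement p) :
    ExtVanishingCts p :=
  extVanishingCts_of_NFStatement h3 hNF inertiaLift

end Fermat.Agent.S14.Reduction
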